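import Mathlib

set_option autoImplicit false

namespace Fermat.Agent.S49

open Module

/-- A commuting family of endomorphisms stabilising a nonzero finite-dimensional subspace has a
common eigenvector inside it (algebraically closed base field). -/
theorem exists_common_eigenvector_aux {K V : Type*} [Field K] [IsAlgClosed K] [AddCommGroup V]
    [Module K V] (𝒮 : Set (Module.End K V)) (hcomm : ∀ s ∈ 𝒮, ∀ t ∈ 𝒮, Commute s t) :
    ∀ (n : ℕ) (W : Submodule K V), FiniteDimensional K W → finrank K W = n → W ≠ ⊥ →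
      (∀ s ∈ 𝒮, ∀ w ∈ W, s w ∈ W) →
      ∃ g ∈ W, g ≠ 0 ∧ ∀ s ∈ 𝒮, ∃ c : K, s g = c • g := by
  intro n
  induction n using Nat.strong_induction_on with
  | _ n ih =>
    intro W hfd hn hW hstab
    by_cases hsc : ∀ s ∈ 𝒮, ∃ c : K, ∀ w ∈ W, s w = c • w
    · obtain ⟨g, hgW, hg0⟩ := (Submodule.ne_bot_iff W).mp hW
      exact ⟨g, hgW, hg0, fun s hs => (hsc s hs).imp fun c hc => hc g hgW⟩
    · push Not at hsc
      obtain ⟨s, hs, hns⟩ := hsc
      have hnt : Nontrivial W := (Submodule.nontrivial_iff_ne_bot).mpr hW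
      obtain ⟨μ, hμ⟩ := Module.End.exists_eigenvalue (s.restrict (hstab s hs))
      obtain ⟨w, hw⟩ := hμ.exists_hasEigenvector
      set W₁ : Submodule K V := W ⊓ LinearMap.ker (s - algebraMap K (Module.End K V) μ) with hW₁
      have hle : W₁ ≤ W := inf_le_left
      have hw1 : (w : V) ∈ W₁ := by
        refine Submodule.mem_inf.mpr ⟨w.2, ?_⟩
        have h1 := hw.apply_eq_smul
        have h2 : s (w : V) = μ • (w : V) := by
          have := congrArg Subtype.val h1
          simpa using this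
        simp [LinearMap.mem_ker, h2, Module.algebraMap_end_apply]
      have hw0 : (w : V) ≠ 0 := fun h => hw.2 (Subtype.ext h)
      have hW₁ne : W₁ ≠ ⊥ := (Submodule.ne_bot_iff _).mpr ⟨w, hw1, hw0⟩
      have hlt : W₁ < W := by
        refine lt_of_le_of_ne hle fun heq => ?_
        obtain ⟨x, hxW, hx⟩ := hns μ
        apply hx
        have : x ∈ W₁ := heq ▸ hxW
        have h3 := (Submodule.mem_inf.mp this).2
        simp only [LinearMap.mem_ker, LinearMap.sub_apply, Module.algebraMap_end_apply] at h3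
        exact sub_eq_zero.mp h3
      have hstab₁ : ∀ t ∈ 𝒮, ∀ x ∈ W₁, t x ∈ W₁ := by
        intro t ht x hx
        have hx' := Submodule.mem_inf.mp hx
        refine Submodule.mem_inf.mpr ⟨hstab t ht x hx'.1, ?_⟩
        have h3 := hx'.2
        simp only [LinearMap.mem_ker, LinearMap.sub_apply, Module.algebraMap_end_apply] at h3 ⊢
        have hc : s (t x) = t (s x) := by
          have := hcomm s hs t ht
          have h4 := congrArg (fun f : Module.End K V => f x) this.eq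
          simpa using h4
        rw [hc, sub_eq_zero.mp h3, map_smul, sub_self]
      have hfd₁ : FiniteDimensional K W₁ := Submodule.finiteDimensional_of_le hle
      have hrank : finrank K W₁ < n := hn ▸ Submodule.finrank_lt_finrank_of_lt hlt
      obtain ⟨g, hg, hg0, hgs⟩ := ih _ hrank W₁ hfd₁ rfl hW₁ne hstab₁
      exact ⟨g, hle hg, hg0, hgs⟩

theorem exists_common_eigenvector {K V : Type*} [Field K] [IsAlgClosed K] [AddCommGroup V]
    [Module K V] (𝒮 : Set (Module.End K V)) (hcomm : ∀ s ∈ 𝒮, ∀ t ∈ 𝒮, Commute s t)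
    (W : Submodule K V) [FiniteDimensional K W] (hW : W ≠ ⊥)
    (hstab : ∀ s ∈ 𝒮, ∀ w ∈ W, s w ∈ W) :
    ∃ g ∈ W, g ≠ 0 ∧ ∀ s ∈ 𝒮, ∃ c : K, s g = c • g :=
  exists_common_eigenvector_aux 𝒮 hcomm _ W inferInstance rfl hW hstab

theorem exists_eigenvector_ker_le_aux {K V : Type*} [Field K] [IsAlgClosed K] [AddCommGroup V]
    [Module K V] {T : Type*} [CommRing T] (ρ : T →+* Module.End K V) (𝔪 : Ideal T)
    (h𝔪 : 𝔪.IsPrime) :
    ∀ (n : ℕ) (W : Submodule K V), FiniteDimensional K W → finrank K W = n →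
      (∀ t, ∀ w ∈ W, ρ t w ∈ W) → (∃ v ∈ W, ∀ t, ρ t v = 0 → t ∈ 𝔪) →
      ∃ g : V, g ≠ 0 ∧ ∃ χ : T → K, (∀ t, ρ t g = χ t • g) ∧ ∀ t, χ t = 0 → t ∈ 𝔪 := by
  intro n
  induction n using Nat.strong_induction_on with
  | _ n ih =>
    intro W hfd hn hstab hv
    obtain ⟨v, hvW, hv⟩ := hv
    have hv0 : v ≠ 0 := by
      rintro rfl
      exact h𝔪.ne_top ((Ideal.eq_top_iff_one _).mpr (hv 1 (map_zero _)))
    have hW : W ≠ ⊥ := (Submodule.ne_bot_iff _).mpr ⟨v, hvW, hv0⟩
    have hcomm : ∀ s ∈ Set.range ρ, ∀ t ∈ Set.range ρ, Commute s t := by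
      rintro _ ⟨s, rfl⟩ _ ⟨t, rfl⟩
      show ρ s * ρ t = ρ t * ρ s
      rw [← map_mul, ← map_mul, mul_comm]
    obtain ⟨g, hgW, hg0, hg⟩ := exists_common_eigenvector (Set.range ρ) hcomm W hW
      (by rintro _ ⟨t, rfl⟩ w hw; exact hstab t w hw)
    have hg' : ∀ t, ∃ c : K, ρ t g = c • g := fun t => hg (ρ t) ⟨t, rfl⟩
    choose χ hχ using hg'
    by_cases hker : ∀ t, χ t = 0 → t ∈ 𝔪
    · exact ⟨g, hg0, χ, hχ, hker⟩
    · push Not at hker
      obtain ⟨t, ht0, htm⟩ := hker
      set f : W →ₗ[K] V := (ρ t).domRestrict W with hf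
      have hstab' : ∀ s, ∀ w ∈ W.map (ρ t), ρ s w ∈ W.map (ρ t) := by
        rintro s _ ⟨w, hw, rfl⟩
        refine ⟨ρ s w, hstab s w hw, ?_⟩
        have h1 : ρ t * ρ s = ρ s * ρ t := by rw [← map_mul, ← map_mul, mul_comm]
        exact congrArg (fun e : Module.End K V => e w) h1
      have hv' : ∃ v' ∈ W.map (ρ t), ∀ s, ρ s v' = 0 → s ∈ 𝔪 := by
        refine ⟨ρ t v, ⟨v, hvW, rfl⟩, fun s hs => ?_⟩
        have h1 : ρ (s * t) v = 0 := by rw [map_mul]; exact hs
        exact (h𝔪.mem_or_mem (hv _ h1)).resolve_right htm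
      have hrange : LinearMap.range f = W.map (ρ t) := by
        rw [hf, LinearMap.range_domRestrict]
      have hkerpos : 0 < finrank K (LinearMap.ker f) := by
        rw [Module.finrank_pos_iff_exists_ne_zero]
        refine ⟨⟨⟨g, hgW⟩, ?_⟩, ?_⟩
        · rw [LinearMap.mem_ker, hf, LinearMap.domRestrict_apply]
          show ρ t g = 0
          rw [hχ t, ht0, zero_smul]
        · intro h
          apply hg0
          have := congrArg (fun x : LinearMap.ker f => ((x : W) : V)) h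
          simpa using this
      have hsum := LinearMap.finrank_range_add_finrank_ker f
      have hfd' : FiniteDimensional K (W.map (ρ t)) := by
        rw [← hrange]; infer_instance
      have hlt : finrank K (W.map (ρ t)) < n := by
        rw [← hrange]; omega
      exact ih _ hlt (W.map (ρ t)) hfd' rfl hstab' hv'

/-- Let a commutative ring `T` act on a finite-dimensional vector space `V` over an algebraically
closed field, `𝔪` a prime ideal of `T`, and `v : V` whose annihilator is contained in `𝔪`. Then there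
is a common eigenvector whose eigencharacter has kernel contained in `𝔪`. -/
theorem exists_eigenvector_ker_le {K V : Type*} [Field K] [IsAlgClosed K] [AddCommGroup V]
    [Module K V] [FiniteDimensional K V] {T : Type*} [CommRing T] (ρ : T →+* Module.End K V)
    (𝔪 : Ideal T) (h𝔪 : 𝔪.IsPrime) (v : V) (hv : ∀ t, ρ t v = 0 → t ∈ 𝔪) :
    ∃ g : V, g ≠ 0 ∧ ∃ χ : T → K, (∀ t, ρ t g = χ t • g) ∧ ∀ t, χ t = 0 → t ∈ 𝔪 :=
  exists_eigenvector_ker_le_aux ρ 𝔪 h𝔪 _ ⊤ inferInstance rfl (fun _ _ _ => Submodule.mem_top)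
    ⟨v, Submodule.mem_top, hv⟩

theorem exists_eigenvector_ringHom_ker_le {K V : Type*} [Field K] [IsAlgClosed K] [AddCommGroup V]
    [Module K V] [FiniteDimensional K V] {T : Type*} [CommRing T] (ρ : T →+* Module.End K V)
    (𝔪 : Ideal T) (h𝔪 : 𝔪.IsPrime) (v : V) (hv : ∀ t, ρ t v = 0 → t ∈ 𝔪) :
    ∃ g : V, g ≠ 0 ∧ ∃ χ : T →+* K, (∀ t, ρ t g = χ t • g) ∧ RingHom.ker χ ≤ 𝔪 := by
  obtain ⟨g, hg0, χ, hχ, hker⟩ := exists_eigenvector_ker_le ρ 𝔪 h𝔪 v hv
  have hinj : Function.Injective fun c : K => c • g := smul_left_injective K hg0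
  have h1 : χ 1 = 1 := hinj (by simp [← hχ])
  have hmul : ∀ s t, χ (s * t) = χ s * χ t := fun s t => hinj (by
    simp only
    rw [← hχ, map_mul, Module.End.mul_apply, hχ t, map_smul, hχ s, smul_smul, mul_comm])
  have h0 : χ 0 = 0 := hinj (by simp [← hχ])
  have hadd : ∀ s t, χ (s + t) = χ s + χ t := fun s t => hinj (by
    simp only
    rw [← hχ, map_add, LinearMap.add_apply, hχ s, hχ t, add_smul])
  refine ⟨g, hg0, ⟨⟨⟨χ, h1⟩, hmul⟩, h0, hadd⟩, hχ, fun t ht => hker t ?_⟩
  exact (RingHom.mem_ker).mp ht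

end Fermat.Agent.S49
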