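import Mathlib
import Fermat.Prelude.Def_FormalHecke_Eigensystem

set_option autoImplicit false

namespace Fermat.Agent.S49

open FormalHecke

variable {R : Type*} [CommRing R]

theorem isEigensystem_mul_coprime {e a : ℕ → R} (h : IsEigensystem e a) :
    ∀ m n : ℕ, m.Coprime n → a (m * n) = a m * a n := by
  obtain ⟨h1, hrec⟩ := h
  intro m
  induction m using Nat.strong_induction_on with
  | _ m ih =>
    intro n hmn
    rcases Nat.eq_zero_or_pos m with rfl | hmpos
    · -- m = 0 : coprime 0 n means n = 1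
      have hn : n = 1 := by simpa using hmn
      subst hn
      simp [h1]
    rcases eq_or_ne m 1 with rfl | hm1
    · simp [h1]
    -- m ≥ 2
    set p := m.minFac with hp
    have hpp : p.Prime := Nat.minFac_prime hm1
    obtain ⟨m', hm'⟩ : p ∣ m := Nat.minFac_dvd m
    have hm'pos : 0 < m' := by
      rcases Nat.eq_zero_or_pos m' with rfl | h'
      · simp at hm'; omega
      · exact h'
    have hm'lt : m' < m := by
      rw [hm']
      exact lt_mul_of_one_lt_left hm'pos hpp.one_lt
    have hcop' : m'.Coprime n := Nat.Coprime.coprime_dvd_left ⟨p, by rw [hm', mul_comm]⟩ hmn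
    have hpn : ¬ p ∣ n := by
      intro hpn
      have : p ∣ Nat.gcd m n := Nat.dvd_gcd (Nat.minFac_dvd m) hpn
      rw [hmn] at this
      exact hpp.one_lt.ne' (Nat.dvd_one.mp this)
    have e1 := hrec p hpp (m' * n)
    have e2 := hrec p hpp m'
    have ih1 := ih m' hm'lt n hcop'
    rw [hm', mul_assoc]
    by_cases hpm' : p ∣ m'
    · obtain ⟨m'', hm''⟩ := hpm'
      have hm''pos : 0 < m'' := by
        rcases Nat.eq_zero_or_pos m'' with rfl | h'
        · simp at hm''; omega
        · exact h'
      have hm''lt : m'' < m := by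
        refine lt_of_le_of_lt ?_ hm'lt
        rw [hm'']
        exact Nat.le_mul_of_pos_left _ hpp.pos
      have hcop'' : m''.Coprime n :=
        Nat.Coprime.coprime_dvd_left ⟨p, by rw [hm'', mul_comm]⟩ hcop'
      have ih2 := ih m'' hm''lt n hcop''
      have hd1 : p ∣ m' * n := Dvd.dvd.mul_right ⟨m'', hm''⟩ n
      have hdiv1 : m' * n / p = m'' * n := by
        rw [hm'', mul_assoc, Nat.mul_div_cancel_left _ hpp.pos]
      have hdiv2 : m' / p = m'' := by
        rw [hm'', Nat.mul_div_cancel_left _ hpp.pos]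
      rw [if_pos hd1, hdiv1, ih2, ih1] at e1
      rw [if_pos ⟨m'', hm''⟩, hdiv2] at e2
      have e1' : a (p * (m' * n)) = a p * (a m' * a n) - e p * (a m'' * a n) := by
        rw [← e1]; ring
      have e2' : a (p * m') = a p * a m' - e p * a m'' := by
        rw [← e2]; ring
      rw [e1', e2']; ring
    · have hd1 : ¬ p ∣ m' * n := by
        intro hd
        rcases (Nat.Prime.dvd_mul hpp).mp hd with h' | h'
        · exact hpm' h'
        · exact hpn h'
      rw [if_neg hd1, mul_zero, add_zero, ih1] at e1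
      rw [if_neg hpm', mul_zero, add_zero] at e2
      rw [e1, e2]; ring

theorem isEigensystem_isRecursive {e a : ℕ → R} (h : IsEigensystem e a) : IsRecursive e a := by
  refine ⟨h.1, isEigensystem_mul_coprime h, fun ℓ r hℓ => ?_⟩
  have e1 := h.2 ℓ hℓ (ℓ ^ (r + 1))
  have hd : ℓ ∣ ℓ ^ (r + 1) := dvd_pow_self ℓ (Nat.succ_ne_zero r)
  have hdiv : ℓ ^ (r + 1) / ℓ = ℓ ^ r := by
    rw [pow_succ, Nat.mul_div_cancel _ hℓ.pos]
  rw [if_pos hd, hdiv] at e1
  have : ℓ ^ (r + 2) = ℓ * ℓ ^ (r + 1) := by ring
  rw [this, ← e1]; ring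

end Fermat.Agent.S49
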