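import Fermat.Agent.S49.Basic
import Fermat.Agent.S49.Formal

set_option autoImplicit false

open CuspForm EisensteinWeightOne CongruenceSubgroup ModularFormClass UpperHalfPlane

namespace Fermat.Agent.S49

noncomputable section

variable {N : ℕ} [NeZero N]

/-- A formal eigensystem relation with vanishing first coefficient (and zeroth) is zero. -/
theorem eq_zero_of_hecke_relation {R : Type*} [CommRing R] {e lam b : ℕ → R}
    (hrel : ∀ p : ℕ, p.Prime → ∀ n : ℕ,
      b (p * n) + e p * (if p ∣ n then b (n / p) else 0) = lam p * b n)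
    (h0 : b 0 = 0) (h1 : b 1 = 0) : ∀ n, b n = 0 := by
  intro n
  induction n using Nat.strong_induction_on with
  | _ n ih =>
    rcases Nat.eq_zero_or_pos n with rfl | hpos
    · exact h0
    rcases eq_or_ne n 1 with rfl | hn1
    · exact h1
    set p := n.minFac with hp
    have hpp : p.Prime := Nat.minFac_prime hn1
    obtain ⟨m, hm⟩ : p ∣ n := Nat.minFac_dvd n
    have hmpos : 0 < m := by
      rcases Nat.eq_zero_or_pos m with rfl | h'
      · simp at hm; omega
      · exact h'
    have hmlt : m < n := by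
      rw [hm]
      exact lt_mul_of_one_lt_left hmpos hpp.one_lt
    have e1 := hrel p hpp m
    rw [ih m hmlt, mul_zero] at e1
    have hdiv : m / p < n := lt_of_le_of_lt (Nat.div_le_self _ _) hmlt
    rw [ih _ hdiv] at e1
    rw [hm]
    simpa using e1

theorem exists_normalizedEigenform_of_eigenvector {g : CuspForm (Gamma0 N) 2} (hg0 : g ≠ 0)
    (lam : ℕ → ℂ)
    (hT : ∀ (ℓ : ℕ) (hℓ : ℓ.Prime) (hℓN : ¬ ℓ ∣ N), heckeTLin 2 hℓ hℓN g = lam ℓ • g)
    (hU : ∀ (q : ℕ) (_ : q.Prime) (hqN : q ∣ N), heckeULin 2 hqN g = lam q • g) :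
    ∃ f : CuspForm (Gamma0 N) 2, f.IsNormalizedEigenform ∧
      ∀ p : ℕ, p.Prime → qCoeff ⇑f p = lam p := by
  set b : ℕ → ℂ := fun n => qCoeff ⇑g n with hb
  set e : ℕ → ℂ := fun p => if p ∣ N then 0 else (p : ℂ) with he
  have hrel : ∀ p : ℕ, p.Prime → ∀ n : ℕ,
      b (p * n) + e p * (if p ∣ n then b (n / p) else 0) = lam p * b n := by
    intro p hp n
    by_cases hpN : p ∣ N
    · have h1 := congrArg (fun x : CuspForm (Gamma0 N) 2 => qCoeff ⇑x n) (hU p hp hpN)
      simp only [qc_heckeU hp, qc_smul] at h1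
      simp only [hb, he, if_pos hpN, zero_mul, add_zero, mul_comm p n]
      exact h1
    · have h1 := congrArg (fun x : CuspForm (Gamma0 N) 2 => qCoeff ⇑x n) (hT p hp hpN)
      simp only [qc_heckeT, qc_smul] at h1
      simp only [hb, he, if_neg hpN, mul_comm p n]
      rw [← h1]
      split_ifs <;> simp
  have hb0 : b 0 = 0 := qc_coeff_zero g
  have hb1 : b 1 ≠ 0 := by
    intro hb1
    apply hg0
    apply qc_ext
    intro n
    rw [qc_zero]
    exact eq_zero_of_hecke_relation hrel hb0 hb1 n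
  set c : ℕ → ℂ := fun n => (b 1)⁻¹ * b n with hc
  have hc1 : c 1 = 1 := inv_mul_cancel₀ hb1
  have hrelc : ∀ p : ℕ, p.Prime → ∀ n : ℕ,
      c (p * n) + e p * (if p ∣ n then c (n / p) else 0) = lam p * c n := by
    intro p hp n
    have := congrArg (fun x => (b 1)⁻¹ * x) (hrel p hp n)
    simp only [hc]
    simp only [mul_add] at this
    rw [mul_left_comm (lam p), ← this]
    split_ifs <;> ring
  have hlam : ∀ p : ℕ, p.Prime → c p = lam p := by
    intro p hp
    have := hrelc p hp 1
    have hnd : ¬ p ∣ 1 := fun h => hp.one_lt.ne' (Nat.dvd_one.mp h)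
    rw [if_neg hnd, mul_zero, add_zero, mul_one, hc1, mul_one] at this
    exact this
  have heig : FormalHecke.IsEigensystem e c := by
    refine ⟨hc1, fun p hp n => ?_⟩
    rw [hrelc p hp n, hlam p hp]
  obtain ⟨-, hmul, hpow⟩ := isEigensystem_isRecursive heig
  refine ⟨(b 1)⁻¹ • g, ?_, ?_⟩
  · have hq : ∀ n, qCoeff ⇑((b 1)⁻¹ • g) n = c n := fun n => qc_smul _ _ _
    refine ⟨?_, ?_, ?_, ?_⟩
    · rw [hq]; exact hc1
    · intro m n hmn
      rw [hq, hq, hq]; exact hmul m n hmn
    · intro p r hp hpN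
      rw [hq, hq, hq, hq, hpow p r hp]
      simp only [he, if_neg hpN]
    · intro p r hp hpN
      rw [hq, hq, hq, hpow p r hp]
      simp only [he, if_pos hpN, zero_mul, sub_zero]
  · intro p hp
    rw [qc_smul]
    exact hlam p hp

end

end Fermat.Agent.S49
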