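import Fermat.Agent.S49.Basic

set_option autoImplicit false

open CuspForm EisensteinWeightOne CongruenceSubgroup ModularFormClass UpperHalfPlane

namespace Fermat.Agent.S49

noncomputable section

variable {N : ℕ} [NeZero N]

/-- restriction of Hecke operators to the integral lattice -/
def resHom (N : ℕ) [NeZero N] :
    heckeAlgebra N 2 (∅ : Set ℕ) →ₐ[ℤ] Module.End ℤ (intLattice N 2) where
  toFun t := ((t : Module.End ℂ (CuspForm (Gamma0 N) 2)).restrictScalars ℤ).restrict
    (fun _ hx => mem_intLattice_of_mem_heckeAlgebra (by norm_num) t.2 hx)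
  map_one' := LinearMap.ext fun x => Subtype.ext rfl
  map_mul' s t := LinearMap.ext fun x => Subtype.ext rfl
  map_zero' := LinearMap.ext fun x => Subtype.ext rfl
  map_add' s t := LinearMap.ext fun x => Subtype.ext rfl
  commutes' m := LinearMap.ext fun x => Subtype.ext (by
    show ((algebraMap ℤ (heckeAlgebra N 2 (∅ : Set ℕ)) m :
      Module.End ℂ (CuspForm (Gamma0 N) 2))) (x : CuspForm (Gamma0 N) 2) = _
    simp)

theorem resHom_apply_coe (t : heckeAlgebra N 2 (∅ : Set ℕ)) (x : intLattice N 2) :
    ((resHom N t x : intLattice N 2) : CuspForm (Gamma0 N) 2) =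
      (t : Module.End ℂ (CuspForm (Gamma0 N) 2)) x := rfl

theorem resHom_injective (h : CuspForm.HasIntegralBasis N) : Function.Injective (resHom N) := by
  rw [injective_iff_map_eq_zero]
  intro t ht
  apply Subtype.ext
  rw [Subalgebra.coe_zero]
  have hspan : Submodule.span ℂ ((intLattice N 2 : Submodule ℤ (CuspForm (Gamma0 N) 2)) :
      Set (CuspForm (Gamma0 N) 2)) = ⊤ := by
    rw [← qIntegralSet_eq]; exact h
  refine LinearMap.ext_on hspan fun x hx => ?_
  have := congrArg (fun e : Module.End ℤ (intLattice N 2) =>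
    ((e ⟨x, hx⟩ : intLattice N 2) : CuspForm (Gamma0 N) 2)) ht
  simpa [resHom_apply_coe] using this

theorem isIntegral_hecke (h : CuspForm.HasIntegralBasis N) (t : heckeAlgebra N 2 (∅ : Set ℕ)) :
    IsIntegral ℤ t := by
  have : Module.Finite ℤ (intLattice N 2) := Module.Finite.iff_fg.mpr (intLattice_fg N 2)
  exact (isIntegral_algHom_iff (resHom N) (resHom_injective h)).mp
    (Algebra.IsIntegral.isIntegral _)

end

end Fermat.Agent.S49
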