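import Fermat.Agent.S49.Congr

set_option autoImplicit false

open CuspForm EisensteinWeightOne CongruenceSubgroup ModularFormClass UpperHalfPlane

namespace Fermat.Agent.S49

noncomputable section

variable {N : ℕ} [NeZero N] {a : ℕ → ℤ}

omit [NeZero N] in
theorem mem_intLattice_of_haf {f₀ : CuspForm (Gamma0 N) 2} {af : ℕ → ℤ}
    (haf : ∀ n, (af n : ℂ) = qCoeff ⇑f₀ n) : f₀ ∈ intLattice N 2 :=
  (mem_intLattice_iff' f₀).mpr fun n => ⟨af n, (haf n).symm⟩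

theorem heckeT_sub_mem
    (heig : FormalHecke.IsEigensystem
      (fun ℓ => if ℓ ∣ N then 0 else ((chiNegThree ℓ : ℤ) : ℤ)) a)
    {f₀ : CuspForm (Gamma0 N) 2} {af : ℕ → ℤ} (haf : ∀ n, (af n : ℂ) = qCoeff ⇑f₀ n)
    (hcong : ∀ n, (3 : ℤ) ∣ af n - a n) {ℓ : ℕ} (hℓ : ℓ.Prime) (hℓN : ¬ ℓ ∣ N) :
    (heckeAlgebra.T hℓ hℓN (Set.notMem_empty ℓ) : heckeAlgebra N 2 (∅ : Set ℕ)) -
      ((a ℓ : ℤ) : heckeAlgebra N 2 (∅ : Set ℕ)) ∈ modThreeIdeal f₀ := by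
  apply mem_modThreeIdeal_of_qCoeff
  intro n
  obtain ⟨m, hm⟩ := heckeT_congr heig hcong hℓ hℓN n
  refine ⟨m, ?_⟩
  rw [Subalgebra.coe_sub, LinearMap.sub_apply, heckeAlgebra.coe_T, intCast_apply]
  show qcLin N 2 n _ = _
  rw [map_sub, map_smul, qcLin_apply, qcLin_apply, qc_heckeT]
  simp only [← haf]
  have h2 := congrArg (Int.cast : ℤ → ℂ) hm
  push_cast at h2
  rw [smul_eq_mul, ← h2]

theorem heckeU_sub_mem
    (heig : FormalHecke.IsEigensystem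
      (fun ℓ => if ℓ ∣ N then 0 else ((chiNegThree ℓ : ℤ) : ℤ)) a)
    {f₀ : CuspForm (Gamma0 N) 2} {af : ℕ → ℤ} (haf : ∀ n, (af n : ℂ) = qCoeff ⇑f₀ n)
    (hcong : ∀ n, (3 : ℤ) ∣ af n - a n) {q : ℕ} (hq : q.Prime) (hqN : q ∣ N) :
    (heckeAlgebra.U hq hqN (Set.notMem_empty q) : heckeAlgebra N 2 (∅ : Set ℕ)) -
      ((a q : ℤ) : heckeAlgebra N 2 (∅ : Set ℕ)) ∈ modThreeIdeal f₀ := by
  apply mem_modThreeIdeal_of_qCoeff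
  intro n
  obtain ⟨m, hm⟩ := heckeU_congr heig hcong hq hqN n
  refine ⟨m, ?_⟩
  rw [Subalgebra.coe_sub, LinearMap.sub_apply, heckeAlgebra.coe_U, intCast_apply]
  show qcLin N 2 n _ = _
  rw [map_sub, map_smul, qcLin_apply, qcLin_apply, qc_heckeU hq]
  simp only [← haf]
  have h2 := congrArg (Int.cast : ℤ → ℂ) hm
  push_cast at h2
  rw [smul_eq_mul, ← h2]

theorem one_notMem_modThreeIdeal
    (heig : FormalHecke.IsEigensystem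
      (fun ℓ => if ℓ ∣ N then 0 else ((chiNegThree ℓ : ℤ) : ℤ)) a)
    {f₀ : CuspForm (Gamma0 N) 2} {af : ℕ → ℤ} (haf : ∀ n, (af n : ℂ) = qCoeff ⇑f₀ n)
    (hcong : ∀ n, (3 : ℤ) ∣ af n - a n) :
    (1 : heckeAlgebra N 2 (∅ : Set ℕ)) ∉ modThreeIdeal f₀ := by
  intro h
  obtain ⟨m, hm⟩ := qCoeff_of_mem_modThreeIdeal h 1
  rw [Subalgebra.coe_one, Module.End.one_apply, ← haf] at hm
  have h1 : af 1 = 3 * m := by exact_mod_cast hm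
  have h2 := hcong 1
  rw [heig.1, h1] at h2
  omega

theorem exists_int_sub_mem
    (heig : FormalHecke.IsEigensystem
      (fun ℓ => if ℓ ∣ N then 0 else ((chiNegThree ℓ : ℤ) : ℤ)) a)
    {f₀ : CuspForm (Gamma0 N) 2} {af : ℕ → ℤ} (haf : ∀ n, (af n : ℂ) = qCoeff ⇑f₀ n)
    (hcong : ∀ n, (3 : ℤ) ∣ af n - a n) (t : heckeAlgebra N 2 (∅ : Set ℕ)) :
    ∃ m : ℤ, t - ((m : ℤ) : heckeAlgebra N 2 (∅ : Set ℕ)) ∈ modThreeIdeal f₀ := by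
  obtain ⟨x, hx⟩ := t
  refine Algebra.adjoin_induction
    (p := fun x hx => ∃ m : ℤ, (⟨x, hx⟩ : heckeAlgebra N 2 (∅ : Set ℕ)) -
      ((m : ℤ) : heckeAlgebra N 2 (∅ : Set ℕ)) ∈ modThreeIdeal f₀) ?_ ?_ ?_ ?_ hx
  · rintro x (⟨ℓ, hℓ, hℓN, -, rfl⟩ | ⟨q, hqN, hq, -, rfl⟩)
    · exact ⟨a ℓ, heckeT_sub_mem heig haf hcong hℓ hℓN⟩
    · exact ⟨a q, heckeU_sub_mem heig haf hcong hq hqN⟩
  · intro r
    refine ⟨r, ?_⟩
    have : (⟨algebraMap ℤ _ r, Subalgebra.algebraMap_mem _ r⟩ : heckeAlgebra N 2 (∅ : Set ℕ)) =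
        ((r : ℤ) : heckeAlgebra N 2 (∅ : Set ℕ)) := by
      apply Subtype.ext
      rw [coe_intCast_hecke]
      simp
    rw [this, sub_self]
    exact zero_mem _
  · rintro x y hx hy ⟨m₁, h₁⟩ ⟨m₂, h₂⟩
    refine ⟨m₁ + m₂, ?_⟩
    have : (⟨x + y, add_mem hx hy⟩ : heckeAlgebra N 2 (∅ : Set ℕ)) -
        ((m₁ + m₂ : ℤ) : heckeAlgebra N 2 (∅ : Set ℕ)) =
        ((⟨x, hx⟩ : heckeAlgebra N 2 (∅ : Set ℕ)) - ((m₁ : ℤ) : heckeAlgebra N 2 (∅ : Set ℕ))) +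
        ((⟨y, hy⟩ : heckeAlgebra N 2 (∅ : Set ℕ)) - ((m₂ : ℤ) : heckeAlgebra N 2 (∅ : Set ℕ))) := by
      have e : (⟨x + y, add_mem hx hy⟩ : heckeAlgebra N 2 (∅ : Set ℕ)) = ⟨x, hx⟩ + ⟨y, hy⟩ := rfl
      rw [e]; push_cast; ring
    rw [this]
    exact add_mem h₁ h₂
  · rintro x y hx hy ⟨m₁, h₁⟩ ⟨m₂, h₂⟩
    refine ⟨m₁ * m₂, ?_⟩
    have : (⟨x * y, mul_mem hx hy⟩ : heckeAlgebra N 2 (∅ : Set ℕ)) -
        ((m₁ * m₂ : ℤ) : heckeAlgebra N 2 (∅ : Set ℕ)) =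
        ((⟨x, hx⟩ : heckeAlgebra N 2 (∅ : Set ℕ)) - ((m₁ : ℤ) : heckeAlgebra N 2 (∅ : Set ℕ))) *
          ⟨y, hy⟩ + ((m₁ : ℤ) : heckeAlgebra N 2 (∅ : Set ℕ)) *
        ((⟨y, hy⟩ : heckeAlgebra N 2 (∅ : Set ℕ)) - ((m₂ : ℤ) : heckeAlgebra N 2 (∅ : Set ℕ))) := by
      have e : (⟨x * y, mul_mem hx hy⟩ : heckeAlgebra N 2 (∅ : Set ℕ)) = ⟨x, hx⟩ * ⟨y, hy⟩ := rfl
      rw [e]; push_cast; ring
    rw [this]
    exact add_mem (Ideal.mul_mem_right _ _ h₁) (Ideal.mul_mem_left _ _ h₂)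

theorem modThreeIdeal_isMaximal
    (heig : FormalHecke.IsEigensystem
      (fun ℓ => if ℓ ∣ N then 0 else ((chiNegThree ℓ : ℤ) : ℤ)) a)
    {f₀ : CuspForm (Gamma0 N) 2} {af : ℕ → ℤ} (haf : ∀ n, (af n : ℂ) = qCoeff ⇑f₀ n)
    (hcong : ∀ n, (3 : ℤ) ∣ af n - a n) : (modThreeIdeal f₀).IsMaximal := by
  rw [Ideal.isMaximal_iff]
  refine ⟨one_notMem_modThreeIdeal heig haf hcong, fun J x hJ hx hxJ => ?_⟩
  obtain ⟨m, hm⟩ := exists_int_sub_mem heig haf hcong x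
  have hf₀ := mem_intLattice_of_haf haf
  have hmJ : ((m : ℤ) : heckeAlgebra N 2 (∅ : Set ℕ)) ∈ J := by
    have := J.sub_mem hxJ (hJ hm)
    simpa using this
  have h3 : ¬ (3 : ℤ) ∣ m := by
    rintro ⟨m', rfl⟩
    apply hx
    have := add_mem hm (intCast_mem_modThreeIdeal hf₀ m')
    simpa using this
  have hcop : IsCoprime m 3 := by
    rw [Int.isCoprime_iff_gcd_eq_one]
    have h3p : Prime (3 : ℤ) := Int.prime_three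
    rw [Int.gcd_comm]
    exact Int.isCoprime_iff_gcd_eq_one.mp ((Prime.coprime_iff_not_dvd h3p).mpr h3)
  obtain ⟨u, v, huv⟩ := hcop
  have h3J : ((3 : ℤ) : heckeAlgebra N 2 (∅ : Set ℕ)) ∈ J := by
    have := hJ (intCast_mem_modThreeIdeal hf₀ 1)
    simpa using this
  have : (1 : heckeAlgebra N 2 (∅ : Set ℕ)) =
      ((u : ℤ) : heckeAlgebra N 2 (∅ : Set ℕ)) * ((m : ℤ) : heckeAlgebra N 2 (∅ : Set ℕ)) +
      ((v : ℤ) : heckeAlgebra N 2 (∅ : Set ℕ)) * ((3 : ℤ) : heckeAlgebra N 2 (∅ : Set ℕ)) := by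
    have := congrArg (Int.cast : ℤ → heckeAlgebra N 2 (∅ : Set ℕ)) huv
    push_cast at this
    rw [← this]
    push_cast
    ring
  rw [this]
  exact add_mem (Ideal.mul_mem_left _ _ hmJ) (Ideal.mul_mem_left _ _ h3J)

end

end Fermat.Agent.S49
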