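import Fermat.Agent.S49.HeckeIdeal

set_option autoImplicit false

open CuspForm EisensteinWeightOne CongruenceSubgroup ModularFormClass UpperHalfPlane

namespace Fermat.Agent.S49

noncomputable section

theorem three_dvd_sub_chiNegThree (ℓ : ℕ) : (3 : ℤ) ∣ (ℓ : ℤ) - chiNegThree ℓ := by
  unfold chiNegThree
  split_ifs <;> omega

theorem three_dvd_coeff_e1Chi3In_sub (j : ℕ) :
    (3 : ℤ) ∣ PowerSeries.coeff j (e1Chi3In ℤ) - PowerSeries.coeff j (1 : PowerSeries ℤ) := by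
  unfold e1Chi3In e1Chi3
  rw [PowerSeries.coeff_map, PowerSeries.coeff_mk, PowerSeries.coeff_one]
  split_ifs with h
  · simp
  · simp only [Int.coe_castRingHom, Int.cast_id, sub_zero]
    exact ⟨2 * sigmaChi j, by ring⟩

theorem three_dvd_bridgeProduct_sub (a : ℕ → ℤ) (n : ℕ) :
    (3 : ℤ) ∣ PowerSeries.coeff n (bridgeProduct a) - a n := by
  have h1 : PowerSeries.coeff n (bridgeProduct a) - a n =
      PowerSeries.coeff n (PowerSeries.mk a * (e1Chi3In ℤ - 1)) := by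
    rw [mul_sub, mul_one, map_sub, PowerSeries.coeff_mk]
    rfl
  rw [h1, PowerSeries.coeff_mul]
  refine Finset.dvd_sum fun x _ => ?_
  rw [map_sub]
  exact Dvd.dvd.mul_left (three_dvd_coeff_e1Chi3In_sub x.2) _

variable {N : ℕ} {a : ℕ → ℤ}

theorem heckeT_congr
    (heig : FormalHecke.IsEigensystem
      (fun ℓ => if ℓ ∣ N then 0 else ((chiNegThree ℓ : ℤ) : ℤ)) a)
    {af : ℕ → ℤ} (hcong : ∀ n, (3 : ℤ) ∣ af n - a n) {ℓ : ℕ} (hℓ : ℓ.Prime) (hℓN : ¬ ℓ ∣ N)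
    (n : ℕ) :
    (3 : ℤ) ∣ af (n * ℓ) + (if ℓ ∣ n then (ℓ : ℤ) * af (n / ℓ) else 0) - a ℓ * af n := by
  have h0 := heig.2 ℓ hℓ n
  simp only [if_neg hℓN] at h0
  have hc : ∀ k, af k ≡ a k [ZMOD 3] := fun k => (Int.modEq_iff_dvd.mpr (hcong k)).symm
  have h4 : (ℓ : ℤ) ≡ chiNegThree ℓ [ZMOD 3] :=
    (Int.modEq_iff_dvd.mpr (three_dvd_sub_chiNegThree ℓ)).symm
  have h5 : af (n * ℓ) + (if ℓ ∣ n then (ℓ : ℤ) * af (n / ℓ) else 0) ≡ a ℓ * af n [ZMOD 3] := by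
    have h6 : af (n * ℓ) + (if ℓ ∣ n then (ℓ : ℤ) * af (n / ℓ) else 0) ≡
        a (ℓ * n) + chiNegThree ℓ * (if ℓ ∣ n then a (n / ℓ) else 0) [ZMOD 3] := by
      rw [mul_comm n ℓ]
      refine Int.ModEq.add (hc _) ?_
      split_ifs
      · exact Int.ModEq.mul h4 (hc _)
      · rw [mul_zero]
    refine h6.trans ?_
    rw [h0]
    exact Int.ModEq.mul_left _ (hc n).symm
  exact (Int.modEq_iff_dvd.mp h5.symm)

theorem heckeU_congr
    (heig : FormalHecke.IsEigensystem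
      (fun ℓ => if ℓ ∣ N then 0 else ((chiNegThree ℓ : ℤ) : ℤ)) a)
    {af : ℕ → ℤ} (hcong : ∀ n, (3 : ℤ) ∣ af n - a n) {q : ℕ} (hq : q.Prime) (hqN : q ∣ N)
    (n : ℕ) :
    (3 : ℤ) ∣ af (n * q) - a q * af n := by
  have h0 := heig.2 q hq n
  simp only [if_pos hqN, zero_mul, add_zero] at h0
  have hc : ∀ k, af k ≡ a k [ZMOD 3] := fun k => (Int.modEq_iff_dvd.mpr (hcong k)).symm
  have h5 : af (n * q) ≡ a q * af n [ZMOD 3] := by
    refine (hc _).trans ?_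
    rw [mul_comm n q, h0]
    exact Int.ModEq.mul_left _ (hc n).symm
  exact (Int.modEq_iff_dvd.mp h5.symm)

end

end Fermat.Agent.S49
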