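import Fermat.Agent.S49.Basic

set_option autoImplicit false

open CuspForm EisensteinWeightOne CongruenceSubgroup ModularFormClass UpperHalfPlane

namespace Fermat.Agent.S49

noncomputable section

variable {N : ℕ} [NeZero N]

/-- Hecke operators `t` such that `t f₀` lies in `3 L`, `L` the integral lattice. -/
def modThreeIdeal (f₀ : CuspForm (Gamma0 N) 2) : Ideal (heckeAlgebra N 2 (∅ : Set ℕ)) where
  carrier := {t | ∃ y ∈ intLattice N 2, (t : Module.End ℂ (CuspForm (Gamma0 N) 2)) f₀ = (3 : ℂ) • y}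
  add_mem' := by
    rintro s t ⟨y, hy, hs⟩ ⟨z, hz, ht⟩
    refine ⟨y + z, add_mem hy hz, ?_⟩
    rw [Subalgebra.coe_add, LinearMap.add_apply, hs, ht, smul_add]
  zero_mem' := ⟨0, zero_mem _, by simp⟩
  smul_mem' := by
    rintro s t ⟨y, hy, ht⟩
    refine ⟨(s : Module.End ℂ (CuspForm (Gamma0 N) 2)) y,
      mem_intLattice_of_mem_heckeAlgebra (by norm_num) s.2 hy, ?_⟩
    rw [smul_eq_mul, Subalgebra.coe_mul, Module.End.mul_apply, ht, map_smul]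

theorem mem_modThreeIdeal_iff (f₀ : CuspForm (Gamma0 N) 2) (t : heckeAlgebra N 2 (∅ : Set ℕ)) :
    t ∈ modThreeIdeal f₀ ↔
      ∃ y ∈ intLattice N 2, (t : Module.End ℂ (CuspForm (Gamma0 N) 2)) f₀ = (3 : ℂ) • y :=
  Iff.rfl

/-- criterion via `q`-coefficients -/
theorem mem_modThreeIdeal_of_qCoeff (f₀ : CuspForm (Gamma0 N) 2) (t : heckeAlgebra N 2 (∅ : Set ℕ))
    (h : ∀ n, ∃ m : ℤ, qCoeff ⇑((t : Module.End ℂ (CuspForm (Gamma0 N) 2)) f₀) n = 3 * (m : ℂ)) :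
    t ∈ modThreeIdeal f₀ := by
  refine ⟨(3 : ℂ)⁻¹ • (t : Module.End ℂ (CuspForm (Gamma0 N) 2)) f₀, ?_, ?_⟩
  · rw [mem_intLattice_iff']
    intro n
    obtain ⟨m, hm⟩ := h n
    exact ⟨m, by rw [qc_smul, hm]; field_simp⟩
  · rw [smul_smul, mul_inv_cancel₀ (by norm_num : (3 : ℂ) ≠ 0), one_smul]

theorem qCoeff_of_mem_modThreeIdeal {f₀ : CuspForm (Gamma0 N) 2} {t : heckeAlgebra N 2 (∅ : Set ℕ)}
    (ht : t ∈ modThreeIdeal f₀) (n : ℕ) :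
    ∃ m : ℤ, qCoeff ⇑((t : Module.End ℂ (CuspForm (Gamma0 N) 2)) f₀) n = 3 * (m : ℂ) := by
  obtain ⟨y, hy, hty⟩ := ht
  obtain ⟨m, hm⟩ := (mem_intLattice_iff' y).mp hy n
  exact ⟨m, by rw [hty, qc_smul, hm]⟩

theorem ann_le_modThreeIdeal (f₀ : CuspForm (Gamma0 N) 2) (t : heckeAlgebra N 2 (∅ : Set ℕ))
    (h : (t : Module.End ℂ (CuspForm (Gamma0 N) 2)) f₀ = 0) : t ∈ modThreeIdeal f₀ :=
  ⟨0, zero_mem _, by rw [h, smul_zero]⟩

theorem coe_intCast_hecke (m : ℤ) :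
    ((m : heckeAlgebra N 2 (∅ : Set ℕ)) : Module.End ℂ (CuspForm (Gamma0 N) 2)) =
      (m : Module.End ℂ (CuspForm (Gamma0 N) 2)) := rfl

theorem intCast_apply (m : ℤ) (f : CuspForm (Gamma0 N) 2) :
    (((m : heckeAlgebra N 2 (∅ : Set ℕ)) : Module.End ℂ (CuspForm (Gamma0 N) 2))) f = (m : ℂ) • f := by
  rw [coe_intCast_hecke]
  have : ((m : ℤ) : Module.End ℂ (CuspForm (Gamma0 N) 2)) = ((m : ℤ) : ℂ) • 1 := by
    rw [Int.cast_smul_eq_zsmul, zsmul_one]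
  rw [this, LinearMap.smul_apply, Module.End.one_apply]

theorem intCast_mem_modThreeIdeal {f₀ : CuspForm (Gamma0 N) 2} (hf₀ : f₀ ∈ intLattice N 2)
    (m : ℤ) : ((3 * m : ℤ) : heckeAlgebra N 2 (∅ : Set ℕ)) ∈ modThreeIdeal f₀ := by
  refine ⟨m • f₀, (intLattice N 2).smul_mem m hf₀, ?_⟩
  rw [intCast_apply]
  push_cast
  rw [mul_smul, Int.cast_smul_eq_zsmul]

end

end Fermat.Agent.S49
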